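/-
IHARA track, package POINT→CLASS (helper6), file 2: **base change of parabolic homomorphisms for an
arbitrary subgroup `Γ ≤ SL₂(ℤ)`** (helper4's `Nf/Base.lean` is for `Γ₀(N)` only).

`R₁ → R₂` commutative rings.
* `ihpcCast Γ R₁ R₂ : parabolicHoms R₁ Γ R₁ →ₗ[R₁] parabolicHoms R₂ Γ R₂`, `φ ↦ algebraMap ∘ φ`, commuting
  with the operator of every coset system (`ihpcCast_homPar`);
* `ihpcLift Γ R₁ R₂ f : R₂ ⊗[R₁] X →ₗ[R₂] parabolicHoms R₂ Γ R₂` for `f : X →ₗ[R₁] parabolicHoms R₁ Γ R₁`,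
  `a ⊗ x ↦ a • cast (f x)`; it is injective if `f` is injective and `R₂` is free over `R₁`
  (`ihpcLift_injective`), and it intertwines `g.baseChange R₂` with `S.homPar R₂ R₂` whenever `f`
  intertwines `g` with `S.homPar R₁ R₁` (`ihpcLift_intertwine`).
-/
import Mathlib
import Fermat.Agent.Lib.T1.Mono.Coset

set_option autoImplicit false
set_option linter.unusedSectionVars false
set_option linter.unusedVariables false
set_option linter.style.haveILetI false

open scoped TensorProduct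
open Matrix MatrixGroups ModularCurve ModularCurve.Period Fermat.Agent.T1

namespace Fermat.Agent.Ihara

noncomputable section

variable (Γ : Subgroup SL(2, ℤ)) (R₁ R₂ : Type*) [CommRing R₁] [CommRing R₂] [Algebra R₁ R₂]

/-- `φ ↦ algebraMap ∘ φ` -/
def ihpcCastHom : (Additive Γ →+ R₁) →ₗ[R₁] (Additive Γ →+ R₂) where
  toFun φ := ((algebraMap R₁ R₂ : R₁ →+* R₂) : R₁ →+ R₂).comp φ
  map_add' φ ψ := by ext; simp
  map_smul' c φ := by
    ext γ
    simp [Algebra.smul_def]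

@[simp] theorem ihpcCastHom_apply (φ : Additive Γ →+ R₁) (γ : Additive Γ) :
    ihpcCastHom Γ R₁ R₂ φ γ = algebraMap R₁ R₂ (φ γ) := rfl

theorem ihpcCastHom_mem {φ : Additive Γ →+ R₁} (hφ : φ ∈ parabolicHoms R₁ Γ R₁) :
    ihpcCastHom Γ R₁ R₂ φ ∈ parabolicHoms R₂ Γ R₂ := by
  intro γ hγ
  show algebraMap R₁ R₂ (φ (Additive.ofMul γ)) = 0
  rw [hφ γ hγ, map_zero]

/-- `parabolicHoms R₁ Γ R₁ → parabolicHoms R₂ Γ R₂` -/
def ihpcCast : ↥(parabolicHoms R₁ Γ R₁) →ₗ[R₁] ↥(parabolicHoms R₂ Γ R₂) where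
  toFun φ := ⟨ihpcCastHom Γ R₁ R₂ φ, ihpcCastHom_mem Γ R₁ R₂ φ.2⟩
  map_add' φ ψ := by apply Subtype.ext; simp
  map_smul' c φ := by apply Subtype.ext; simp

@[simp] theorem ihpcCast_coe (φ : ↥(parabolicHoms R₁ Γ R₁)) :
    ((ihpcCast Γ R₁ R₂ φ : ↥(parabolicHoms R₂ Γ R₂)) : Additive Γ →+ R₂)
      = ihpcCastHom Γ R₁ R₂ φ := rfl

theorem ihpcCast_apply (φ : ↥(parabolicHoms R₁ Γ R₁)) (γ : Additive Γ) :
    ((ihpcCast Γ R₁ R₂ φ : ↥(parabolicHoms R₂ Γ R₂)) : Additive Γ →+ R₂) γ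
      = algebraMap R₁ R₂ ((φ : Additive Γ →+ R₁) γ) := rfl

/-- the cast commutes with the operator of every coset system -/
theorem ihpcCast_homPar {ι : Type} [Fintype ι] (S : tdmCosetSys Γ ι)
    (φ : ↥(parabolicHoms R₁ Γ R₁)) :
    ihpcCast Γ R₁ R₂ (S.homPar R₁ R₁ φ) = S.homPar R₂ R₂ (ihpcCast Γ R₁ R₂ φ) := by
  apply Subtype.ext
  rw [tdmCosetSys.homPar_coe, ihpcCast_coe, ihpcCast_coe, tdmCosetSys.homPar_coe]
  exact (S.hom_comp ((algebraMap R₁ R₂ : R₁ →+* R₂) : R₁ →+ R₂) φ.1).symm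

section Lift

variable {X : Type*} [AddCommGroup X] [Module R₁ X] (f : X →ₗ[R₁] ↥(parabolicHoms R₁ Γ R₁))

/-- `a ⊗ x ↦ a • cast (f x)` -/
def ihpcLift : R₂ ⊗[R₁] X →ₗ[R₂] ↥(parabolicHoms R₂ Γ R₂) :=
  LinearMap.liftBaseChange R₂ ((ihpcCast Γ R₁ R₂).comp f)

@[simp] theorem ihpcLift_tmul (a : R₂) (x : X) :
    ihpcLift Γ R₁ R₂ f (a ⊗ₜ[R₁] x) = a • ihpcCast Γ R₁ R₂ (f x) := by
  rw [ihpcLift, LinearMap.liftBaseChange_tmul]
  rfl

/-- the lift intertwines `g.baseChange R₂` with the operator of a coset system intertwined by `f` -/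
theorem ihpcLift_intertwine {ι : Type} [Fintype ι] (S : tdmCosetSys Γ ι) (g : Module.End R₁ X)
    (hg : ∀ x, f (g x) = S.homPar R₁ R₁ (f x)) (y : R₂ ⊗[R₁] X) :
    ihpcLift Γ R₁ R₂ f (g.baseChange R₂ y) = S.homPar R₂ R₂ (ihpcLift Γ R₁ R₂ f y) := by
  induction y using TensorProduct.induction_on with
  | zero => simp
  | tmul a x =>
    rw [LinearMap.baseChange_tmul, ihpcLift_tmul, ihpcLift_tmul, map_smul, hg, ihpcCast_homPar]
  | add x y hx hy => rw [map_add, map_add, hx, hy, map_add, map_add]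

/-- **the lift is injective** if `f` is injective and `R₂` is free over `R₁` -/
theorem ihpcLift_injective [Module.Free R₁ R₂] (hf : Function.Injective f) :
    Function.Injective (ihpcLift Γ R₁ R₂ f) := by
  classical
  rw [← LinearMap.ker_eq_bot, LinearMap.ker_eq_bot']
  intro y hy
  set e := Module.Free.chooseBasis R₁ R₂ with he
  obtain ⟨c, rfl⟩ := TensorProduct.eq_repr_basis_left e y
  have h1 : ∀ i, c i = 0 := by
    intro i
    apply hf
    rw [map_zero]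
    apply Subtype.ext
    refine AddMonoidHom.ext fun γ => ?_
    have h2 : ((ihpcLift Γ R₁ R₂ f (c.sum fun i n => e i ⊗ₜ[R₁] n) : ↥(parabolicHoms R₂ Γ R₂)) :
        Additive Γ →+ R₂) γ = 0 := by
      rw [hy]
      rfl
    rw [Finsupp.sum, map_sum, Submodule.coe_sum, AddMonoidHom.finsetSum_apply] at h2
    have h3 : ∑ j ∈ c.support, ((f (c j) : Additive Γ →+ R₁) γ) • e j = 0 := by
      rw [← h2]
      refine Finset.sum_congr rfl fun j _ => ?_
      rw [ihpcLift_tmul, Submodule.coe_smul, AddMonoidHom.smul_apply, ihpcCast_apply,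
        Algebra.smul_def, smul_eq_mul, mul_comm]
    have h4 := e.linearIndependent
    rw [linearIndependent_iff'] at h4
    by_cases hi : i ∈ c.support
    · exact h4 c.support (fun j => (f (c j) : Additive Γ →+ R₁) γ) h3 i hi
    · rw [Finsupp.notMem_support_iff.mp hi, map_zero]
  have h5 : c = 0 := Finsupp.ext h1
  rw [h5, Finsupp.sum_zero_index]

end Lift

end

end Fermat.Agent.Ihara
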