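/-
IHARA track, package POINT→CLASS (helper6), file 3: **the topologically nilpotent vectors
(`ih4pNil1`, helper3's `H4/Part.lean`) under a semilinear intertwining map**.

`O → R` commutative rings, `𝔞 ⊆ O`, `𝔟 ⊆ R` ideals with `𝔞 R ⊆ 𝔟`; `f : H → H'` an `O`-linear map
from an `O`-module to an `R`-module intertwining `S ∈ End_O H` with `S' ∈ End_R H'`.  Then `f` maps
`ih4pNil1 𝔞 S` into `ih4pNil1 𝔟 S'`.
-/
import Mathlib
import Fermat.Agent.Lib.Ihara.H4.Part

set_option autoImplicit false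
set_option linter.unusedSectionVars false
set_option linter.unusedVariables false
set_option linter.style.haveILetI false

namespace Fermat.Agent.Ihara

section Semilinear

variable {O R : Type*} [CommRing O] [CommRing R] [Algebra O R]
  {H : Type*} [AddCommGroup H] [Module O H]
  {H' : Type*} [AddCommGroup H'] [Module R H'] [Module O H'] [IsScalarTower O R H']

theorem ihpc_intertwine_pow {S : Module.End O H} {S' : Module.End R H'} (f : H →ₗ[O] H')
    (hf : ∀ x, f (S x) = S' (f x)) (N : ℕ) (x : H) : f ((S ^ N) x) = (S' ^ N) (f x) := by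
  induction N generalizing x with
  | zero => simp
  | succ k ih => rw [pow_succ, pow_succ, Module.End.mul_apply, Module.End.mul_apply, ih, hf]

theorem ihpc_map_mem_smul_top (𝔞 : Ideal O) (𝔟 : Ideal R) (h𝔞 : 𝔞.map (algebraMap O R) ≤ 𝔟)
    (f : H →ₗ[O] H') (n : ℕ) {x : H} (hx : x ∈ 𝔞 ^ n • (⊤ : Submodule O H)) :
    f x ∈ 𝔟 ^ n • (⊤ : Submodule R H') := by
  refine Submodule.smul_induction_on hx ?_ ?_
  · intro a ha u _
    rw [map_smul, ← algebraMap_smul R a (f u)]
    refine Submodule.smul_mem_smul ?_ Submodule.mem_top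
    have h1 : algebraMap O R a ∈ (𝔞 ^ n).map (algebraMap O R) := Ideal.mem_map_of_mem _ ha
    rw [Ideal.map_pow] at h1
    exact Ideal.pow_right_mono h𝔞 n h1
  · intro u v hu hv
    rw [map_add]
    exact Submodule.add_mem _ hu hv

/-- a semilinear intertwining map preserves the topologically nilpotent vectors -/
theorem ihpc_nil1_map (𝔞 : Ideal O) (𝔟 : Ideal R) (h𝔞 : 𝔞.map (algebraMap O R) ≤ 𝔟)
    {S : Module.End O H} {S' : Module.End R H'} (f : H →ₗ[O] H')
    (hf : ∀ x, f (S x) = S' (f x)) {x : H} (hx : x ∈ ih4pNil1 𝔞 S) : f x ∈ ih4pNil1 𝔟 S' := by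
  intro n
  obtain ⟨N, hN⟩ := hx n
  refine ⟨N, ?_⟩
  rw [← ihpc_intertwine_pow f hf]
  exact ihpc_map_mem_smul_top 𝔞 𝔟 h𝔞 f n hN

end Semilinear

end Fermat.Agent.Ihara
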