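/-
IHARA track, package POINT→CLASS (helper6), file 1: **the norm map on the `χ`-coinvariants** (pure
algebra, in the setting of helper1's `Hm/Chi.lean`).

`G` a group acting `𝒪`-linearly on `M` through `ρ`, `G₁ ≤ G` a finite subgroup, `χ : G₁ →* 𝒪`.
* `ihpcNorm ρ G₁ χ = ∑_{g ∈ G₁} χ(g⁻¹) • ρ g : M → M` kills the `ρ g m - χ g • m` (`g ∈ G₁`), hence
  induces `ihpcNormBar : M^χ → M`;
* `mk ∘ ihpcNormBar = |G₁| • id` (`ihpcNormBar_mk`), so `ihpcNormBar` is injective as soon as `M^χ`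
  is torsion-free and `|G₁| ≠ 0` in `𝒪` (`ihpcNormBar_injective`);
* `ihpcNormBar` intertwines the endomorphisms commuting with `ρ G₁` (`ihpcNormBar_map`), in
  particular the action of a commutative `G` (`ihpcNormBar_rho`).
-/
import Mathlib
import Fermat.Agent.Lib.Ihara.Hm.Chi

set_option autoImplicit false
set_option linter.unusedSectionVars false
set_option linter.unusedVariables false

namespace Fermat.Agent.Ihara

open Module Submodule

section Norm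

variable {𝒪 : Type*} [CommRing 𝒪] {M : Type*} [AddCommGroup M] [Module 𝒪 M]
  {G : Type*} [Group G] (ρ : G →* Module.End 𝒪 M)
  (G₁ : Subgroup G) [Fintype G₁] (χ : G₁ →* 𝒪)

/-- the norm `∑_{g ∈ G₁} χ(g⁻¹) • ρ g` -/
def ihpcNorm : Module.End 𝒪 M := ∑ g : G₁, χ g⁻¹ • ρ (g : G)

theorem ihpcNorm_apply (m : M) : ihpcNorm ρ G₁ χ m = ∑ g : G₁, χ g⁻¹ • ρ (g : G) m := by
  unfold ihpcNorm
  rw [LinearMap.sum_apply]
  rfl

/-- `N (ρ h m) = χ h • N m` for `h ∈ G₁` -/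
theorem ihpcNorm_rho (h : G₁) (m : M) :
    ihpcNorm ρ G₁ χ (ρ (h : G) m) = χ h • ihpcNorm ρ G₁ χ m := by
  rw [ihpcNorm_apply, ihpcNorm_apply, Finset.smul_sum]
  refine Fintype.sum_equiv (Equiv.mulRight h) _ _ fun g => ?_
  show χ g⁻¹ • ρ (g : G) (ρ (h : G) m) = χ h • χ (g * h)⁻¹ • ρ ((g * h : G₁) : G) m
  have h1 : ρ (g : G) (ρ (h : G) m) = ρ ((g * h : G₁) : G) m := by
    rw [Subgroup.coe_mul, map_mul]
    rfl
  have h2 : χ h * χ (g * h)⁻¹ = χ g⁻¹ := by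
    rw [← map_mul, mul_inv_rev, mul_inv_cancel_left]
  rw [h1, smul_smul, h2]

/-- the norm kills the relations of the `χ`-coinvariants -/
theorem ihpcNorm_kill : ihmChiSub ρ G₁ χ ≤ LinearMap.ker (ihpcNorm ρ G₁ χ) := by
  refine Submodule.span_le.mpr ?_
  rintro _ ⟨g, m, rfl⟩
  rw [SetLike.mem_coe, LinearMap.mem_ker, map_sub, map_smul, ihpcNorm_rho, sub_self]

/-- **the norm map `M^χ → M`** -/
def ihpcNormBar : IhmChi ρ G₁ χ →ₗ[𝒪] M :=
  (ihmChiSub ρ G₁ χ).liftQ (ihpcNorm ρ G₁ χ) (ihpcNorm_kill ρ G₁ χ)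

@[simp] theorem ihpcNormBar_mk (m : M) :
    ihpcNormBar ρ G₁ χ (Submodule.Quotient.mk m) = ihpcNorm ρ G₁ χ m := rfl

/-- `mk ∘ N̄ = |G₁|` -/
theorem ihpc_mk_normBar (x : IhmChi ρ G₁ χ) :
    (Submodule.Quotient.mk (ihpcNormBar ρ G₁ χ x) : IhmChi ρ G₁ χ)
      = (Fintype.card G₁ : 𝒪) • x := by
  obtain ⟨m, rfl⟩ := Submodule.Quotient.mk_surjective _ x
  rw [ihpcNormBar_mk, ihpcNorm_apply]
  have h0 : (Submodule.Quotient.mk (∑ g : G₁, χ g⁻¹ • ρ (g : G) m) : IhmChi ρ G₁ χ)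
      = ∑ g : G₁, (Submodule.Quotient.mk (χ g⁻¹ • ρ (g : G) m) : IhmChi ρ G₁ χ) :=
    map_sum (ihmChiSub ρ G₁ χ).mkQ _ _
  rw [h0]
  have h1 : ∀ g : G₁, (Submodule.Quotient.mk (χ g⁻¹ • ρ (g : G) m) : IhmChi ρ G₁ χ)
      = Submodule.Quotient.mk m := by
    intro g
    rw [Submodule.Quotient.mk_smul, ihm_chi_mk_rho, smul_smul, ← map_mul, inv_mul_cancel,
      map_one, one_smul]
  rw [Finset.sum_congr rfl fun g _ => h1 g, Finset.sum_const, Finset.card_univ,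
    Nat.cast_smul_eq_nsmul]

/-- **the norm map is injective** if `M^χ` is torsion-free and `|G₁|` is not zero in `𝒪` -/
theorem ihpcNormBar_injective [IsDomain 𝒪] [Module.IsTorsionFree 𝒪 (IhmChi ρ G₁ χ)]
    (hcard : (Fintype.card G₁ : 𝒪) ≠ 0) : Function.Injective (ihpcNormBar ρ G₁ χ) := by
  rw [← LinearMap.ker_eq_bot, LinearMap.ker_eq_bot']
  intro x hx
  have h1 := ihpc_mk_normBar ρ G₁ χ x
  rw [hx, Submodule.Quotient.mk_zero] at h1
  rcases smul_eq_zero.mp h1.symm with h | h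
  · exact absurd h hcard
  · exact h

/-- the norm commutes with the endomorphisms commuting with `ρ G₁` -/
theorem ihpcNorm_commute (t : Module.End 𝒪 M) (ht : ∀ g : G₁, Commute t (ρ g)) (m : M) :
    ihpcNorm ρ G₁ χ (t m) = t (ihpcNorm ρ G₁ χ m) := by
  rw [ihpcNorm_apply, ihpcNorm_apply, map_sum]
  refine Finset.sum_congr rfl fun g _ => ?_
  rw [map_smul]
  congr 1
  exact (LinearMap.congr_fun (ht g).eq m).symm

/-- the norm map intertwines the endomorphisms commuting with `ρ G₁` -/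
theorem ihpcNormBar_map (t : Module.End 𝒪 M) (ht : ∀ g : G₁, Commute t (ρ g))
    (x : IhmChi ρ G₁ χ) :
    ihpcNormBar ρ G₁ χ (ihmChiMap ρ G₁ χ t ht x) = t (ihpcNormBar ρ G₁ χ x) := by
  obtain ⟨m, rfl⟩ := Submodule.Quotient.mk_surjective _ x
  rw [ihmChiMap_mk, ihpcNormBar_mk, ihpcNormBar_mk, ihpcNorm_commute ρ G₁ χ t ht]

/-- the norm map intertwines the action of a commutative `G` -/
theorem ihpcNormBar_rho (hG : ∀ a b : G, a * b = b * a) (g : G) (x : IhmChi ρ G₁ χ) :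
    ihpcNormBar ρ G₁ χ (ihmChiRho hG ρ G₁ χ g x) = ρ g (ihpcNormBar ρ G₁ χ x) :=
  ihpcNormBar_map ρ G₁ χ (ρ g) (fun h => ihm_rho_commute hG ρ g h) x

end Norm

end Fermat.Agent.Ihara
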