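/-
IHARA track, package **POINT→CLASS** (helper6), file 4: from a joint eigenvector over a point of the
Hecke ring of the `χ'`-quotient `M^χ'` of the `θ`-part of `Hom_par(Γ_H(M), O)` (helper1's
`IhmChiPart`) to an **eigenclass in `Hom_par(Γ_H(M), R)`**.

Input  = the output of helper4's `ihn_exists_joint_eigen`: `y ≠ 0` in `R ⊗[O] M^χ'`, an eigenvector of
the twisted Hecke operators `tl ℓ = T_ℓ ⟨z ℓ⟩` (eigenvalues `lam ℓ`) and of the diamond operators of a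
subgroup `Δ₂` with `Δ₁ ⊔ Δ₂ = ⊤` (character `χ`).
Output = a character `Ψ : (ℤ/M)ˣ → R` (trivial on `H`, `= χ'` on `Δ₁`, `= χ` on `Δ₂`) and a class
`c ≠ 0` in `Hom_par(Γ_H(M), R)` with `⟨d⟩ c = Ψ d • c`, `T♭_ℓ c = lam ℓ • c` — verbatim the hypotheses
`ψ c hc0 hcD hcT` of helper4's `ihn_point_trace_ne_two` — and, for helper8, the `θ`-locality of `c`
at the primes of `Ps`.

The class is `c = Φ(y)`, `Φ = ihpcLift (ι)`, `ι = incl ∘ N̄ : M^χ' → Hom_par(Γ_H(M), O)` the norm map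
(injective because `mk ∘ N̄ = |Δ₁|` and `M^χ'` is torsion-free), base-changed to `R`.
-/
import Mathlib
import Fermat.Agent.Lib.Ihara.Hm.ChiPart
import Fermat.Agent.Lib.Ihara.Tw.TransferInst
import Fermat.Agent.Lib.Alpha.S32.Points
import Fermat.Agent.Lib.Ihara.Pc.Norm
import Fermat.Agent.Lib.Ihara.Pc.Base
import Fermat.Agent.Lib.Ihara.Pc.Nil

set_option autoImplicit false
set_option linter.unusedSectionVars false
set_option linter.unusedVariables false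
set_option linter.style.haveILetI false

open scoped TensorProduct

namespace Fermat.Agent.Ihara

open Matrix MatrixGroups CongruenceSubgroup ModularCurve ModularCurve.Period Module
open Fermat.Agent.DS Fermat.Agent.T1 Fermat.Agent.T1G Fermat.Agent.T2
open Fermat.Agent.Alpha (AlpqPoint)

/-! ### Pure algebra: scalars under base change, characters of eigenvectors -/

section Alg

/-- the base change of a scalar endomorphism is scalar -/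
theorem ihpc_baseChange_scalar {O : Type*} [CommRing O] (R : Type*) [CommRing R] [Algebra O R]
    {X : Type*} [AddCommGroup X] [Module O X] (f : Module.End O X) (a : O)
    (hf : ∀ x, f x = a • x) (y : R ⊗[O] X) : f.baseChange R y = algebraMap O R a • y := by
  induction y using TensorProduct.induction_on with
  | zero => simp
  | tmul r x =>
    rw [LinearMap.baseChange_tmul, hf, TensorProduct.tmul_smul, algebraMap_smul]
  | add u v hu hv => rw [map_add, hu, hv, smul_add]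

/-- the eigenvalues of a common eigenvector of a monoid of endomorphisms form a character -/
theorem ihpc_exists_char {R : Type*} [CommRing R] {V : Type*} [AddCommGroup V] [Module R V]
    {G : Type*} [Monoid G] (T : G →* Module.End R V) (c : V)
    (hinj : ∀ s s' : R, s • c = s' • c → s = s')
    (h : ∀ g, ∃ s : R, T g c = s • c) :
    ∃ Ψ : G →* R, (∀ g, T g c = Ψ g • c) ∧ ∀ g s, T g c = s • c → Ψ g = s := by
  classical
  choose ψ hψ using h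
  have huniq : ∀ g s, T g c = s • c → ψ g = s := fun g s hs => hinj _ _ ((hψ g).symm.trans hs)
  refine ⟨{ toFun := ψ, map_one' := ?_, map_mul' := ?_ }, hψ, huniq⟩
  · apply huniq
    rw [map_one, Module.End.one_apply, one_smul]
  · intro g g'
    apply huniq
    rw [map_mul, Module.End.mul_apply, hψ g', map_smul, hψ g, smul_smul, mul_comm]

end Alg

/-! ### The norm map into `Hom_par(Γ_H(M), O)` -/

section Iota

variable (O : Type) [CommRing O] [IsDomain O] [IsDiscreteValuationRing O] [CharZero O]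
  [IsAdicComplete (IsLocalRing.maximalIdeal O) O] (M : ℕ) [NeZero M] (hM : 6 ≤ M)
  (H : Subgroup (ZMod M)ˣ) (Ps : Set ℕ) (θ : ℕ → O)
  (Δ₁ : Subgroup ((ZMod M)ˣ ⧸ H)) (χ' : Δ₁ →* O)

/-- **the norm map** `M^χ' → Hom_par(Γ_H(M), O)`, `[x] ↦ ∑_{δ ∈ Δ₁} χ'(δ)⁻¹ ⟨δ⟩ x` -/
noncomputable def ihpcIota : IhmChiPart O M hM H Ps θ Δ₁ χ' →ₗ[O] IhfH O O M H :=
  letI : Fintype Δ₁ := Fintype.ofFinite Δ₁
  (ihmPartTIncl O M H Ps θ).comp (ihpcNormBar (ihmPartTDia O M hM H Ps θ) Δ₁ χ')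

theorem ihpcIota_injective [Module.IsTorsionFree O (IhmChiPart O M hM H Ps θ Δ₁ χ')] :
    Function.Injective (ihpcIota O M hM H Ps θ Δ₁ χ') := by
  letI : Fintype Δ₁ := Fintype.ofFinite Δ₁
  unfold ihpcIota
  rw [LinearMap.coe_comp]
  refine (ihmPartTIncl_injective O M H Ps θ).comp ?_
  exact ihpcNormBar_injective (ihmPartTDia O M hM H Ps θ) Δ₁ χ'
    (Nat.cast_ne_zero.mpr Fintype.card_ne_zero)

/-- the image of the norm map lies in the `θ`-part -/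
theorem ihpcIota_mem (v : IhmChiPart O M hM H Ps θ Δ₁ χ') :
    ihpcIota O M hM H Ps θ Δ₁ χ' v ∈ ihmPart O M H Ps θ :=
  ihmPartTIncl_mem O M H Ps θ _

/-- the norm map intertwines the diamond operators -/
theorem ihpcIota_dia (d : (ZMod M)ˣ) (v : IhmChiPart O M hM H Ps θ Δ₁ χ') :
    ihpcIota O M hM H Ps θ Δ₁ χ' (ihmChiDia O M hM H Ps θ Δ₁ χ' (d : (ZMod M)ˣ ⧸ H) v)
      = (ihfSysD M H d).homPar O O (ihpcIota O M hM H Ps θ Δ₁ χ' v) := by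
  letI : Fintype Δ₁ := Fintype.ofFinite Δ₁
  unfold ihpcIota
  rw [LinearMap.comp_apply, LinearMap.comp_apply]
  have h1 := ihpcNormBar_rho (ihmPartTDia O M hM H Ps θ) Δ₁ χ' (ihm_quot_comm M H)
    (d : (ZMod M)ˣ ⧸ H) v
  have h2 : ihmChiDia O M hM H Ps θ Δ₁ χ' (d : (ZMod M)ˣ ⧸ H) v
      = ihmChiRho (ihm_quot_comm M H) (ihmPartTDia O M hM H Ps θ) Δ₁ χ' (d : (ZMod M)ˣ ⧸ H) v := rfl
  rw [h2, h1]
  exact ihmPartTIncl_dia O M hM H Ps θ d _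

/-- the norm map intertwines the Hecke operators -/
theorem ihpcIota_op (ℓ : ℕ) (v : IhmChiPart O M hM H Ps θ Δ₁ χ') :
    ihpcIota O M hM H Ps θ Δ₁ χ' (ihmChiOp O M hM H Ps θ Δ₁ χ' ℓ v)
      = ihmOp O M H ℓ (ihpcIota O M hM H Ps θ Δ₁ χ' v) := by
  letI : Fintype Δ₁ := Fintype.ofFinite Δ₁
  unfold ihpcIota
  rw [LinearMap.comp_apply, LinearMap.comp_apply]
  have h1 := ihpcNormBar_map (ihmPartTDia O M hM H Ps θ) Δ₁ χ' (ihmPartTOp O M hM H Ps θ ℓ)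
    (fun g => ihmPartTOp_commute_dia O M hM H Ps θ ℓ g) v
  have h2 : ihmChiOp O M hM H Ps θ Δ₁ χ' ℓ v
      = ihmChiMap (ihmPartTDia O M hM H Ps θ) Δ₁ χ' (ihmPartTOp O M hM H Ps θ ℓ)
          (fun g => ihmPartTOp_commute_dia O M hM H Ps θ ℓ g) v := rfl
  rw [h2, h1]
  exact ihmPartTIncl_op O M hM H Ps θ ℓ _

end Iota

/-! ### The cast commutes with the Hecke operators `ihmOp` -/

section CastOp

variable (O : Type*) [CommRing O] (R : Type*) [CommRing R] [Algebra O R] (M : ℕ) [NeZero M]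
  (H : Subgroup (ZMod M)ˣ)

theorem ihpcCast_op (ℓ : ℕ) (x : IhfH O O M H) :
    ihpcCast (ihfGammaH M H) O R (ihmOp O M H ℓ x)
      = ihmOp R M H ℓ (ihpcCast (ihfGammaH M H) O R x) := by
  by_cases hℓ : ℓ.Prime
  swap
  · rw [ihmOp_of_not_prime O M H hℓ, ihmOp_of_not_prime R M H hℓ, LinearMap.zero_apply,
      LinearMap.zero_apply, map_zero]
  by_cases h1 : ℓ ∣ M
  · rw [ihmOp_of_dvd O M H hℓ h1, ihmOp_of_dvd R M H hℓ h1]
    exact ihpcCast_homPar (ihfGammaH M H) O R _ x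
  · rw [ihmOp_of_not_dvd O M H hℓ h1, ihmOp_of_not_dvd R M H hℓ h1]
    exact ihpcCast_homPar (ihfGammaH M H) O R _ x

end CastOp

/-! ### The main theorem -/

section Main

variable (O : Type) [CommRing O] [IsDomain O] [IsDiscreteValuationRing O] [CharZero O]
  [IsAdicComplete (IsLocalRing.maximalIdeal O) O] (M : ℕ) [NeZero M] (hM : 6 ≤ M)
  (H : Subgroup (ZMod M)ˣ) (Ps : Set ℕ) (θ : ℕ → O)
  (Δ₁ : Subgroup ((ZMod M)ˣ ⧸ H)) (χ' : Δ₁ →* O) (Δ₂ : Subgroup ((ZMod M)ˣ ⧸ H))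
  (hsup : Δ₁ ⊔ Δ₂ = ⊤)
  [Module.IsTorsionFree O (IhmChiPart O M hM H Ps θ Δ₁ χ')]
  (R : Type) [CommRing R] [IsDomain R] [IsLocalRing R] [Algebra O R] [Module.Free O R]
  [IsLocalHom (algebraMap O R)]
  (z : ℕ → (ZMod M)ˣ) (Good : Set ℕ) (hGood : ∀ ℓ ∈ Good, ℓ.Prime ∧ ¬ ℓ ∣ M)
  (tl : ℕ → Module.End O (IhmChiPart O M hM H Ps θ Δ₁ χ'))
  (htl : ∀ ℓ ∈ Good, ∀ x : IhmPartT O M H Ps θ,
    tl ℓ (ihmChiPartMk O M hM H Ps θ Δ₁ χ' x)
      = ihmChiPartMk O M hM H Ps θ Δ₁ χ' (ihmPartTOp O M hM H Ps θ ℓ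
          (ihmPartTDia O M hM H Ps θ ((z ℓ : (ZMod M)ˣ) : (ZMod M)ˣ ⧸ H) x)))
  (lam : ℕ → R) (χ : Δ₂ →* R)
  (y : R ⊗[O] IhmChiPart O M hM H Ps θ Δ₁ χ') (hy0 : y ≠ 0)
  (hyT : ∀ ℓ ∈ Good, (tl ℓ).baseChange R y = lam ℓ • y)
  (hyG : ∀ g : Δ₂,
    (ihmChiDia O M hM H Ps θ Δ₁ χ' (g : (ZMod M)ˣ ⧸ H)).baseChange R y = χ g • y)

include hsup hGood htl hy0 hyT hyG in
/-- **POINT→CLASS** (general coefficient ring `R`, free over `O`) -/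
theorem ihpc_class :
    ∃ (Ψ : (ZMod M)ˣ →* R) (c : ↥(parabolicHoms R (ihfGammaH M H) R)), c ≠ 0 ∧
      (∀ h ∈ H, Ψ h = 1) ∧
      (∀ (d : (ZMod M)ˣ) (hd : (d : (ZMod M)ˣ ⧸ H) ∈ Δ₁),
        Ψ d = algebraMap O R (χ' ⟨(d : (ZMod M)ˣ ⧸ H), hd⟩)) ∧
      (∀ (d : (ZMod M)ˣ) (hd : (d : (ZMod M)ˣ ⧸ H) ∈ Δ₂),
        Ψ d = χ ⟨(d : (ZMod M)ˣ ⧸ H), hd⟩) ∧
      (∀ d : (ZMod M)ˣ, (ihfSysD M H d).homPar R R c = Ψ d • c) ∧
      (∀ ℓ ∈ Good, ihtrOp H R R z ℓ c = lam ℓ • c) ∧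
      (∀ ℓ ∈ Ps, c ∈ ih4pNil1 (IsLocalRing.maximalIdeal R)
        (ihmOp R M H ℓ - algebraMap R (Module.End R (IhfH R R M H)) (algebraMap O R (θ ℓ)))) := by
  classical
  set ι := ihpcIota O M hM H Ps θ Δ₁ χ' with hι
  set Φ := ihpcLift (ihfGammaH M H) O R ι with hΦ
  have hΦinj : Function.Injective Φ :=
    ihpcLift_injective (ihfGammaH M H) O R ι (ihpcIota_injective O M hM H Ps θ Δ₁ χ')
  -- the lift intertwines the diamond operators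
  have hΦD : ∀ (d : (ZMod M)ˣ) (v : R ⊗[O] IhmChiPart O M hM H Ps θ Δ₁ χ'),
      Φ ((ihmChiDia O M hM H Ps θ Δ₁ χ' (d : (ZMod M)ˣ ⧸ H)).baseChange R v)
        = (ihfSysD M H d).homPar R R (Φ v) := fun d v =>
    ihpcLift_intertwine (ihfGammaH M H) O R ι (ihfSysD M H d) _
      (ihpcIota_dia O M hM H Ps θ Δ₁ χ' d) v
  -- the lift intertwines the Hecke operators `T_ℓ`, `ℓ ∤ M`
  have hΦT : ∀ (ℓ : ℕ) (hℓ : ℓ.Prime) (hℓM : ¬ ℓ ∣ M)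
      (v : R ⊗[O] IhmChiPart O M hM H Ps θ Δ₁ χ'),
      Φ ((ihmChiOp O M hM H Ps θ Δ₁ χ' ℓ).baseChange R v)
        = (ihfSysT M H hℓ hℓM).homPar R R (Φ v) := by
    intro ℓ hℓ hℓM v
    refine ihpcLift_intertwine (ihfGammaH M H) O R ι (ihfSysT M H hℓ hℓM) _ (fun x => ?_) v
    rw [hι, ihpcIota_op, ihmOp_of_not_dvd O M H hℓ hℓM]
  -- `tl ℓ = T_ℓ ⟨z ℓ⟩`
  have htl' : ∀ ℓ ∈ Good, tl ℓ = ihmChiOp O M hM H Ps θ Δ₁ χ' ℓ *
      ihmChiDia O M hM H Ps θ Δ₁ χ' ((z ℓ : (ZMod M)ˣ) : (ZMod M)ˣ ⧸ H) := by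
    intro ℓ hℓ
    refine LinearMap.ext fun v => ?_
    obtain ⟨x, rfl⟩ := ihmChiPartMk_surjective O M hM H Ps θ Δ₁ χ' v
    rw [htl ℓ hℓ, Module.End.mul_apply, ihmChiDia_mk, ihmChiOp_mk]
  set c := Φ y with hc
  have hc0 : c ≠ 0 := fun h => hy0 (hΦinj (by rw [← hc, h, map_zero]))
  -- uniqueness of the eigenvalues
  have hinj : ∀ s s' : R, s • c = s' • c → s = s' := by
    intro s s' h
    have hex : ∃ γ : Additive (ihfGammaH M H),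
        (c : Additive (ihfGammaH M H) →+ R) γ ≠ 0 := by
      by_contra hcon
      refine hc0 (Subtype.ext (AddMonoidHom.ext fun γ => ?_))
      by_contra hγ
      exact hcon ⟨γ, hγ⟩
    obtain ⟨γ, hγ⟩ := hex
    have h2 : ((s • c : ↥(parabolicHoms R (ihfGammaH M H) R)) :
        Additive (ihfGammaH M H) →+ R) γ
        = ((s' • c : ↥(parabolicHoms R (ihfGammaH M H) R)) :
        Additive (ihfGammaH M H) →+ R) γ := by
      rw [h]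
    rw [Submodule.coe_smul, Submodule.coe_smul, AddMonoidHom.smul_apply, AddMonoidHom.smul_apply,
      smul_eq_mul, smul_eq_mul] at h2
    exact mul_right_cancel₀ hγ h2
  -- every diamond operator acts on `y` through a scalar
  have hyΔ : ∀ δ : (ZMod M)ˣ ⧸ H, ∃ s : R,
      (ihmChiDia O M hM H Ps θ Δ₁ χ' δ).baseChange R y = s • y := by
    intro δ
    have hδ : δ ∈ Δ₁ ⊔ Δ₂ := by rw [hsup]; exact Subgroup.mem_top δ
    haveI : Δ₂.Normal := ⟨fun n hn g => by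
      rw [ihm_quot_comm M H g n, mul_inv_cancel_right]; exact hn⟩
    obtain ⟨δ₁, hδ₁, δ₂, hδ₂, rfl⟩ := Subgroup.mem_sup_of_normal_right.mp hδ
    refine ⟨χ ⟨δ₂, hδ₂⟩ * algebraMap O R (χ' ⟨δ₁, hδ₁⟩), ?_⟩
    rw [map_mul, LinearMap.baseChange_mul, Module.End.mul_apply, hyG ⟨δ₂, hδ₂⟩, map_smul,
      ihpc_baseChange_scalar R _ (χ' ⟨δ₁, hδ₁⟩)
        (fun x => ihmChiDia_of_mem O M hM H Ps θ Δ₁ χ' ⟨δ₁, hδ₁⟩ x), smul_smul]
  have hcΔ : ∀ d : (ZMod M)ˣ, ∃ s : R, ihmDiaHom R M H d c = s • c := by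
    intro d
    obtain ⟨s, hs⟩ := hyΔ (d : (ZMod M)ˣ ⧸ H)
    refine ⟨s, ?_⟩
    show (ihfSysD M H d).homPar R R c = s • c
    rw [hc, ← hΦD, hs, map_smul]
  obtain ⟨Ψ, hΨ, hΨuniq⟩ := ihpc_exists_char (ihmDiaHom R M H) c hinj hcΔ
  refine ⟨Ψ, c, hc0, ?_, ?_, ?_, ?_, ?_, ?_⟩
  · intro h hh
    apply hΨuniq
    rw [ihmDiaHom_apply, ihmDia_of_mem R M H hh, Module.End.one_apply, one_smul]
  · intro d hd
    apply hΨuniq
    show (ihfSysD M H d).homPar R R c = _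
    rw [hc, ← hΦD, ihpc_baseChange_scalar R _ (χ' ⟨_, hd⟩)
      (fun x => ihmChiDia_of_mem O M hM H Ps θ Δ₁ χ' ⟨_, hd⟩ x), map_smul]
  · intro d hd
    apply hΨuniq
    show (ihfSysD M H d).homPar R R c = _
    rw [hc, ← hΦD, hyG ⟨_, hd⟩, map_smul]
  · intro d
    exact hΨ d
  · intro ℓ hℓ
    obtain ⟨hℓp, hℓM⟩ := hGood ℓ hℓ
    rw [ihtrOp_of H R R z hℓp hℓM, LinearMap.comp_apply, hc, ← hΦD, ← hΦT ℓ hℓp hℓM,
      ← Module.End.mul_apply, ← LinearMap.baseChange_mul, ← htl' ℓ hℓ, hyT ℓ hℓ, map_smul]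
  · intro ℓ hℓ
    have key : ∀ v : R ⊗[O] IhmChiPart O M hM H Ps θ Δ₁ χ',
        Φ v ∈ ih4pNil1 (IsLocalRing.maximalIdeal R)
          (ihmOp R M H ℓ - algebraMap R (Module.End R (IhfH R R M H))
            (algebraMap O R (θ ℓ))) := by
      intro v
      induction v using TensorProduct.induction_on with
      | zero =>
        rw [map_zero]
        exact Submodule.zero_mem _
      | tmul a m =>
        rw [hΦ, ihpcLift_tmul]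
        refine Submodule.smul_mem _ _ ?_
        have hm : ι m ∈ ih4pNil1 (IsLocalRing.maximalIdeal O)
            (ihmFam O M H Ps θ ⟨ℓ, hℓ⟩) := by
          have h1 := ihpcIota_mem O M hM H Ps θ Δ₁ χ' m
          unfold ihmPart ih4pNil at h1
          exact (Submodule.mem_iInf _).mp h1 ⟨ℓ, hℓ⟩
        refine ihpc_nil1_map (IsLocalRing.maximalIdeal O) (IsLocalRing.maximalIdeal R) ?_
          (ihpcCast (ihfGammaH M H) O R) ?_ hm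
        · exact ((IsLocalRing.local_hom_TFAE (algebraMap O R)).out 0 2).mp
            ‹IsLocalHom (algebraMap O R)›
        · intro x
          unfold ihmFam
          rw [LinearMap.sub_apply, LinearMap.sub_apply, map_sub, ihpcCast_op,
            Module.algebraMap_end_apply, Module.algebraMap_end_apply, map_smul, algebraMap_smul]
      | add u v hu hv =>
        rw [map_add]
        exact Submodule.add_mem _ hu hv
    exact key y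

end Main

/-! ### The operator form with the diamond character given on the whole group -/

section Core

variable (O : Type) [CommRing O] [IsDomain O] [IsDiscreteValuationRing O] [CharZero O]
  [IsAdicComplete (IsLocalRing.maximalIdeal O) O] (M : ℕ) [NeZero M] (hM : 6 ≤ M)
  (H : Subgroup (ZMod M)ˣ) (Ps : Set ℕ) (θ : ℕ → O)
  (Δ₁ : Subgroup ((ZMod M)ˣ ⧸ H)) (χ' : Δ₁ →* O)
  [Module.IsTorsionFree O (IhmChiPart O M hM H Ps θ Δ₁ χ')]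
  (R : Type) [CommRing R] [IsDomain R] [IsLocalRing R] [Algebra O R] [Module.Free O R]
  [IsLocalHom (algebraMap O R)]
  (z : ℕ → (ZMod M)ˣ) (L : Set ℕ)
  (y : R ⊗[O] IhmChiPart O M hM H Ps θ Δ₁ χ') (hy0 : y ≠ 0) (lam : ℕ → R)
  (hyT : ∀ ℓ ∈ L, ((ihmChiOp O M hM H Ps θ Δ₁ χ' ℓ *
    ihmChiDia O M hM H Ps θ Δ₁ χ' ((z ℓ : (ZMod M)ˣ) : (ZMod M)ˣ ⧸ H)).baseChange R) y = lam ℓ • y)
  (Ψ : (ZMod M)ˣ ⧸ H →* R)
  (hyD : ∀ δ : (ZMod M)ˣ ⧸ H, ((ihmChiDia O M hM H Ps θ Δ₁ χ' δ).baseChange R) y = Ψ δ • y)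

include hy0 hyT hyD in
/-- **POINT→CLASS, operator form** (no Hecke ring, no complement of `Δ₁`): the diamond character is
given on the whole of `(ℤ/M)ˣ ⧸ H` -/
theorem ihpc_core :
    ∃ c : ↥(parabolicHoms R (ihfGammaH M H) R), c ≠ 0 ∧
      (∀ d : (ZMod M)ˣ, (ihfSysD M H d).homPar R R c = Ψ (d : (ZMod M)ˣ ⧸ H) • c) ∧
      (∀ ℓ ∈ L, ℓ.Prime → ¬ ℓ ∣ M → ihtrOp H R R z ℓ c = lam ℓ • c) ∧
      (∀ ℓ ∈ Ps, c ∈ ih4pNil1 (IsLocalRing.maximalIdeal R)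
        (ihmOp R M H ℓ - algebraMap R (Module.End R (IhfH R R M H)) (algebraMap O R (θ ℓ)))) := by
  obtain ⟨Ψ', c, hc0, -, -, hΨ₂, hcD, hcT, hcN⟩ := ihpc_class O M hM H Ps θ Δ₁ χ'
    (⊤ : Subgroup ((ZMod M)ˣ ⧸ H)) (sup_top_eq Δ₁) R z {ℓ | ℓ ∈ L ∧ ℓ.Prime ∧ ¬ ℓ ∣ M}
    (fun ℓ hℓ => hℓ.2)
    (fun ℓ => ihmChiOp O M hM H Ps θ Δ₁ χ' ℓ *
      ihmChiDia O M hM H Ps θ Δ₁ χ' ((z ℓ : (ZMod M)ˣ) : (ZMod M)ˣ ⧸ H))
    (fun ℓ _ x => rfl) lam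
    (Ψ.comp (⊤ : Subgroup ((ZMod M)ˣ ⧸ H)).subtype) y hy0 (fun ℓ hℓ => hyT ℓ hℓ.1)
    (fun g => hyD (g : (ZMod M)ˣ ⧸ H))
  refine ⟨c, hc0, fun d => ?_, fun ℓ hℓ hℓp hℓM => hcT ℓ ⟨hℓ, hℓp, hℓM⟩, hcN⟩
  rw [hcD d, hΨ₂ d (Subgroup.mem_top _)]
  rfl

end Core

/-! ### The form over a point of the Hecke ring -/

section Point

variable (O : Type) [CommRing O] [IsDomain O] [IsDiscreteValuationRing O] [CharZero O]
  [IsAdicComplete (IsLocalRing.maximalIdeal O) O] (M : ℕ) [NeZero M] (hM : 6 ≤ M)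
  (H : Subgroup (ZMod M)ˣ) (Ps : Set ℕ) (θ : ℕ → O)
  (Δ₁ : Subgroup ((ZMod M)ˣ ⧸ H)) (χ' : Δ₁ →* O) (Δ₂ : Subgroup ((ZMod M)ˣ ⧸ H))
  (hsup : Δ₁ ⊔ Δ₂ = ⊤)
  [Module.IsTorsionFree O (IhmChiPart O M hM H Ps θ Δ₁ χ')]
  {A : Type} [CommRing A] [Algebra O A] (P : AlpqPoint O A)
  (ρM : A →ₐ[O] Module.End O (IhmChiPart O M hM H Ps θ Δ₁ χ'))
  (z : ℕ → (ZMod M)ˣ) (Good : Set ℕ) (hGood : ∀ ℓ ∈ Good, ℓ.Prime ∧ ¬ ℓ ∣ M)
  (tT : ℕ → A)
  (hρT : ∀ ℓ ∈ Good, ∀ x : IhmPartT O M H Ps θ,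
    ρM (tT ℓ) (ihmChiPartMk O M hM H Ps θ Δ₁ χ' x)
      = ihmChiPartMk O M hM H Ps θ Δ₁ χ' (ihmPartTOp O M hM H Ps θ ℓ
          (ihmPartTDia O M hM H Ps θ ((z ℓ : (ZMod M)ˣ) : (ZMod M)ˣ ⧸ H) x)))
  (χ : Δ₂ →* P.R)
  (y : P.R ⊗[O] IhmChiPart O M hM H Ps θ Δ₁ χ') (hy0 : y ≠ 0)
  (hyA : ∀ t, (ρM t).baseChange P.R y = P.ψ t • y)
  (hyG : ∀ g : Δ₂,
    (ihmChiDia O M hM H Ps θ Δ₁ χ' (g : (ZMod M)ˣ ⧸ H)).baseChange P.R y = χ g • y)

include hsup hGood hρT hy0 hyA hyG in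
/-- **POINT→CLASS** over a point `P` of a Hecke ring `A` acting on `M^χ'` through `ρM`, with
`ρM (tT ℓ) = T_ℓ ⟨z ℓ⟩` for the good primes -/
theorem ihpc_point_class :
    ∃ (Ψ : (ZMod M)ˣ →* P.R) (c : ↥(parabolicHoms P.R (ihfGammaH M H) P.R)), c ≠ 0 ∧
      (∀ h ∈ H, Ψ h = 1) ∧
      (∀ (d : (ZMod M)ˣ) (hd : (d : (ZMod M)ˣ ⧸ H) ∈ Δ₁),
        Ψ d = algebraMap O P.R (χ' ⟨(d : (ZMod M)ˣ ⧸ H), hd⟩)) ∧
      (∀ (d : (ZMod M)ˣ) (hd : (d : (ZMod M)ˣ ⧸ H) ∈ Δ₂),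
        Ψ d = χ ⟨(d : (ZMod M)ˣ ⧸ H), hd⟩) ∧
      (∀ d : (ZMod M)ˣ, (ihfSysD M H d).homPar P.R P.R c = Ψ d • c) ∧
      (∀ ℓ ∈ Good, ihtrOp H P.R P.R z ℓ c = P.ψ (tT ℓ) • c) ∧
      (∀ ℓ ∈ Ps, c ∈ ih4pNil1 (IsLocalRing.maximalIdeal P.R)
        (ihmOp P.R M H ℓ - algebraMap P.R (Module.End P.R (IhfH P.R P.R M H))
          (algebraMap O P.R (θ ℓ)))) := by
  haveI : Module.IsTorsionFree O P.R := Module.isTorsionFree_iff_algebraMap_injective.mpr P.inj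
  haveI : Module.Free O P.R := Module.free_of_finite_type_torsion_free'
  exact ihpc_class O M hM H Ps θ Δ₁ χ' Δ₂ hsup P.R z Good hGood (fun ℓ => ρM (tT ℓ)) hρT
    (fun ℓ => P.ψ (tT ℓ)) χ y hy0 (fun ℓ _ => hyA (tT ℓ)) hyG

end Point

end Fermat.Agent.Ihara
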